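import Fermat.Agent.S59.TW.H81.D561.DictOps

-- Vendored VERBATIM (namespace renamed) by helper81 from helper561's off-main
-- `Fermat/Agent/S38/H561/Dict.lean` (origin/helper561), so that the S59 leaf DICT-T is
-- self-contained on main.  All credit for this file: helper561.

/-!
# Row HARD, cell HECKE, leaf DICT (helper561): Betti point → eigenform on `K`

`Γ₁(M) ≤ K ≤ Γ₀(M)`, `-1 ∈ K`.  Let `vals : OpIdx N' S M → R` be a system of values in a domain
`R` (values `x(T_ℓ)` of a point of a Hecke ring at the good primes, values `χ(d)` of a character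
at the diamond operators) which OCCURS INTEGRALLY in the parabolic classes of `K`: every integral
non-commutative polynomial `P` in the operators `t_ℓ = ⟨u ℓ⟩ T_ℓ`, `⟨d⟩` which kills
`Hom_par(K, ℤ)` satisfies `P(vals) = 0`.

`exists_eigenform_of_occurs` : then there is a cusp form `f ≠ 0` on `K`, a simultaneous
eigenvector of the `t_ℓ` and the `⟨d⟩` with eigenvalues `c`, such that every integral polynomial
relation between the `c j` holds for the `vals j` (i.e. `c j ↦ vals j` is a ring homomorphism
`ℤ[c] → R`).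

Proof: Eichler–Shimura for `K` (helper658: every parabolic class is `per f₁ + conj (per f₂)`),
injectivity of the period map (`PerGInj.lean`) and the lifting lemma (`DictCore.lean`).
-/

set_option autoImplicit false
set_option linter.unusedSectionVars false
set_option linter.style.haveILetI false

noncomputable section

namespace Fermat.Agent.S59.TW.H81.D561

open CongruenceSubgroup ModularForm ModularCurve ModularCurve.Period
open UpperHalfPlane hiding I
open Matrix.SpecialLinearGroup
open Fermat.Agent.S59.TW.H653 Fermat.Agent.S59.TW.H564 Fermat.Agent.S59.TW.H658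
open scoped Manifold MatrixGroups ModularForm

variable {M : ℕ} {K : Subgroup SL(2, ℤ)} [NeZero M] [K.FiniteIndex]

/-- A polynomial in the operators which kills `S₂(K)` kills the complex parabolic classes. -/
theorem lift_opB_complex_eq_zero (hK : IsMid M K) {N' : ℕ} (hMN : M ∣ N')
    (hneg : (-1 : SL(2, ℤ)) ∈ K) (u : ℕ → (ZMod M)ˣ) {S : Set ℕ}
    (P : FreeAlgebra ℤ (OpIdx N' S M)) (hP : FreeAlgebra.lift ℤ (opF hK hMN u) P = 0)
    (y : Additive K →+ ℂ) (hy : IsParabolicHom K y) :
    FreeAlgebra.lift ℤ (opB hK ℂ hMN u) P y = 0 := by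
  obtain ⟨f₁, f₂, rfl⟩ := exists_perG_add_conj_of_isMid hK hneg y hy
  have h1 : ∀ f : CuspForm K 2, FreeAlgebra.lift ℤ (opB hK ℂ hMN u) P (perG f) = 0 := by
    intro f
    have h := lift_intertwine (fun j => endToInt ℂ (CuspForm K 2) (opF hK hMN u j))
      (opB hK ℂ hMN u) (perGL K).toAddMonoidHom
      (fun j m => by
        show perG (opF hK hMN u j m) = _
        rw [perG_opF]
        rfl) P f
    rw [lift_endToInt, hP] at h
    rw [show perG f = (perGL K).toAddMonoidHom f from rfl, ← h, map_zero]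
    exact map_zero (perGL K)
  have h2 : ∀ x : Additive K →+ ℂ, FreeAlgebra.lift ℤ (opB hK ℂ hMN u) P (conjHom x) =
      conjHom (FreeAlgebra.lift ℤ (opB hK ℂ hMN u) P x) := by
    intro x
    have h := lift_intertwine (opB hK ℂ hMN u) (opB hK ℂ hMN u) (conjAdd (Additive K))
      (fun j m => by
        rw [conjAdd_apply, conjAdd_apply]
        exact (opB_comp hK hMN u j (starRingEnd ℂ).toAddMonoidHom m).symm) P x
    rw [conjAdd_apply, conjAdd_apply] at h
    exact h.symm
  rw [map_add, h1, h2, h1, zero_add]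
  exact AddMonoidHom.ext fun _ => by simp [conjHom]

/-- A polynomial in the operators which kills `S₂(K)` kills the integral parabolic classes. -/
theorem lift_opB_int_eq_zero (hK : IsMid M K) {N' : ℕ} (hMN : M ∣ N')
    (hneg : (-1 : SL(2, ℤ)) ∈ K) (u : ℕ → (ZMod M)ˣ) {S : Set ℕ}
    (P : FreeAlgebra ℤ (OpIdx N' S M)) (hP : FreeAlgebra.lift ℤ (opF hK hMN u) P = 0)
    (y : Additive K →+ ℤ) (hy : IsParabolicHom K y) :
    FreeAlgebra.lift ℤ (opB hK ℤ hMN u) P y = 0 := by
  apply castHom_injective
  rw [lift_intertwine (opB hK ℤ hMN u) (opB hK ℂ hMN u) (castHom _)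
    (fun j m => (opB_comp hK hMN u j (Int.castAddHom ℂ) m).symm) P y, map_zero]
  exact lift_opB_complex_eq_zero hK hMN hneg u P hP _ (isParabolicHom_castHom.mpr hy)

/-- **DICT, part 1: Betti point → eigenform on `K`.** -/
theorem exists_eigenform_of_occurs (hK : IsMid M K) {N' : ℕ} (hMN : M ∣ N')
    (hneg : (-1 : SL(2, ℤ)) ∈ K) (u : ℕ → (ZMod M)ˣ) {S : Set ℕ}
    {R : Type*} [CommRing R] [IsDomain R] (vals : OpIdx N' S M → R)
    (hocc : ∀ P : FreeAlgebra ℤ (OpIdx N' S M),
      (∀ y : Additive K →+ ℤ, IsParabolicHom K y →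
        FreeAlgebra.lift ℤ (opB hK ℤ hMN u) P y = 0) →
      FreeAlgebra.lift ℤ vals P = 0) :
    ∃ (f : CuspForm K 2) (c : OpIdx N' S M → ℂ), f ≠ 0 ∧
      (∀ j, opF hK hMN u j f = c j • f) ∧
      ∀ P : FreeAlgebra ℤ (OpIdx N' S M),
        FreeAlgebra.lift ℤ c P = 0 → FreeAlgebra.lift ℤ vals P = 0 := by
  haveI := finiteDimensional_cuspFormG K
  refine exists_eigen_of_ker_le (opF hK hMN u) (opF_comm hK hMN u) vals fun P hP => ?_
  exact hocc P fun y hy => lift_opB_int_eq_zero hK hMN hneg u P hP y hy

end Fermat.Agent.S59.TW.H81.D561
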