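import Mathlib
import Fermat.Agent.S49.LinAlg

-- Vendored VERBATIM (namespace renamed) by helper81 from helper561's off-main
-- `Fermat/Agent/S38/H561/DictCore.lean` (origin/helper561), so that the S59 leaf DICT-T is
-- self-contained on main.  All credit for this file: helper561.

/-!
# Row HARD, cell HECKE, leaf DICT (helper561): the abstract lifting lemma

`op i` (`i : ι`) pairwise commuting endomorphisms of a finite-dimensional complex vector space
`V`, `vals : ι → R` elements of a domain `R` such that every integral non-commutative polynomial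
`P` with `P(op) = 0` satisfies `P(vals) = 0` ("the system `vals` occurs in `V`, integrally").
Then there is a simultaneous eigenvector `g ≠ 0`, `op i g = c i • g`, such that every integral
polynomial relation between the `c i` holds for the `vals i`
(equivalently: there is a ring homomorphism `L : ℤ[c] → R` with `L (c i) = vals i`;
`exists_eigen_ringHom`).

This is the Deligne–Serre lifting lemma (`S49.exists_eigenvector_ker_le`) in a presentation-free
form, for an arbitrary family of commuting operators.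
-/

set_option autoImplicit false

namespace Fermat.Agent.S59.TW.H81.D561

section Core

variable {ι V R : Type*} [AddCommGroup V] [Module ℂ V] [FiniteDimensional ℂ V]
  [CommRing R] [IsDomain R]

/-- **Abstract DICT.**  A system of values occurring integrally in the commuting family `op` is
the reduction of the eigen-system of a simultaneous eigenvector. -/
theorem exists_eigen_of_ker_le (op : ι → Module.End ℂ V)
    (hcomm : ∀ i j, op i * op j = op j * op i) (vals : ι → R)
    (hker : ∀ P : FreeAlgebra ℤ ι, FreeAlgebra.lift ℤ op P = 0 → FreeAlgebra.lift ℤ vals P = 0) :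
    ∃ (g : V) (c : ι → ℂ), g ≠ 0 ∧ (∀ i, op i g = c i • g) ∧
      ∀ P : FreeAlgebra ℤ ι, FreeAlgebra.lift ℤ c P = 0 → FreeAlgebra.lift ℤ vals P = 0 := by
  classical
  -- the commutative algebra generated by the operators
  let B : Subalgebra ℤ (Module.End ℂ V) := Algebra.adjoin ℤ (Set.range op)
  letI : CommRing B := Algebra.adjoinCommRingOfComm ℤ (by
    rintro _ ⟨i, rfl⟩ _ ⟨j, rfl⟩
    exact hcomm i j)
  have hmem : ∀ i, op i ∈ B := fun i => Algebra.subset_adjoin ⟨i, rfl⟩
  let ρ₀ : FreeAlgebra ℤ ι →ₐ[ℤ] B := FreeAlgebra.lift ℤ (fun i => (⟨op i, hmem i⟩ : B))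
  have hρ₀val : ∀ P, ((ρ₀ P : B) : Module.End ℂ V) = FreeAlgebra.lift ℤ op P := by
    intro P
    have : (B.val.comp ρ₀) = FreeAlgebra.lift ℤ op := by
      apply FreeAlgebra.hom_ext
      funext i
      simp [ρ₀]
    exact DFunLike.congr_fun this P
  have hsurj : Function.Surjective ρ₀ := by
    intro b
    have hb : (b : Module.End ℂ V) ∈ Algebra.adjoin ℤ (Set.range op) := b.2
    rw [Algebra.adjoin_range_eq_range_freeAlgebra_lift] at hb
    obtain ⟨P, hP⟩ := hb
    exact ⟨P, Subtype.ext ((hρ₀val P).trans hP)⟩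
  -- the character of `B` with values in `R`
  have hkerle : RingHom.ker (ρ₀ : FreeAlgebra ℤ ι →+* B) ≤
      RingHom.ker ((FreeAlgebra.lift ℤ vals : FreeAlgebra ℤ ι →ₐ[ℤ] R) : FreeAlgebra ℤ ι →+* R) := by
    intro P hP
    rw [RingHom.mem_ker] at hP ⊢
    apply hker
    rw [← hρ₀val]
    have : ρ₀ P = 0 := hP
    rw [this]
    rfl
  let χ₀ : B →+* R := RingHom.liftOfRightInverse (ρ₀ : FreeAlgebra ℤ ι →+* B)
    (Function.surjInv hsurj) (Function.rightInverse_surjInv hsurj)
    ⟨((FreeAlgebra.lift ℤ vals : FreeAlgebra ℤ ι →ₐ[ℤ] R) : FreeAlgebra ℤ ι →+* R), hkerle⟩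
  have hχ₀ : ∀ P, χ₀ (ρ₀ P) = FreeAlgebra.lift ℤ vals P := fun P =>
    RingHom.liftOfRightInverse_comp_apply _ _ _ _ P
  haveI : (RingHom.ker χ₀).IsPrime := RingHom.ker_isPrime χ₀
  obtain ⟨g, χ', hg, hχ', hle⟩ := Fermat.Agent.S49.exists_eigenvector_ker_le
    (K := ℂ) (V := V) (B.val.toRingHom) Subtype.val_injective (RingHom.ker χ₀)
  refine ⟨g, fun i => χ' ⟨op i, hmem i⟩, hg, fun i => hχ' ⟨op i, hmem i⟩, ?_⟩
  intro P hP
  have h1 : FreeAlgebra.lift ℤ (fun i => χ' ⟨op i, hmem i⟩) =
      ((χ'.toIntAlgHom).comp ρ₀) := by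
    apply FreeAlgebra.hom_ext
    funext i
    simp [ρ₀]
  have h2 : χ' (ρ₀ P) = 0 := by
    have := DFunLike.congr_fun h1 P
    rw [hP] at this
    exact this.symm
  rw [← hχ₀]
  exact hle (RingHom.mem_ker.mpr h2)

/-- The ring homomorphism form of the conclusion of `exists_eigen_of_ker_le`: a kernel inclusion
between two evaluations gives a ring homomorphism between their ranges. -/
theorem exists_ringHom_of_ker_le {A : Type*} [CommRing A] (c : ι → A) (vals : ι → R)
    (h : ∀ P : FreeAlgebra ℤ ι, FreeAlgebra.lift ℤ c P = 0 → FreeAlgebra.lift ℤ vals P = 0) :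
    ∃ L : (FreeAlgebra.lift ℤ c).range →+* R,
      ∀ P : FreeAlgebra ℤ ι, L ⟨FreeAlgebra.lift ℤ c P, ⟨P, rfl⟩⟩ = FreeAlgebra.lift ℤ vals P := by
  let f : FreeAlgebra ℤ ι →+* (FreeAlgebra.lift ℤ c).range :=
    ((FreeAlgebra.lift ℤ c).rangeRestrict : FreeAlgebra ℤ ι →+* (FreeAlgebra.lift ℤ c).range)
  have hsurj : Function.Surjective f := (FreeAlgebra.lift ℤ c).rangeRestrict_surjective
  have hle : RingHom.ker f ≤
      RingHom.ker ((FreeAlgebra.lift ℤ vals : FreeAlgebra ℤ ι →ₐ[ℤ] R) : FreeAlgebra ℤ ι →+* R) := by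
    intro P hP
    rw [RingHom.mem_ker] at hP ⊢
    apply h
    have := congrArg Subtype.val hP
    exact this
  refine ⟨RingHom.liftOfRightInverse f (Function.surjInv hsurj)
    (Function.rightInverse_surjInv hsurj) ⟨_, hle⟩, fun P => ?_⟩
  exact RingHom.liftOfRightInverse_comp_apply _ _ _ _ P

end Core

end Fermat.Agent.S59.TW.H81.D561
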