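import Fermat.Agent.S59.TW.H81.D561.Dict

-- Vendored VERBATIM (namespace renamed) by helper81 from helper561's off-main
-- `Fermat/Agent/S38/H561/DictNeb.lean` (origin/helper561), so that the S59 leaf DICT-T is
-- self-contained on main.  All credit for this file: helper561.

/-!
# Row HARD, cell HECKE, leaf DICT (helper561): nebentypus and twist

Part 2 of the dictionary.  A simultaneous eigenvector `f ∈ S₂(K)` of the `t_ℓ = ⟨u ℓ⟩ T_ℓ` and
of the diamond operators `⟨d⟩` (eigenvalues `c`) has a nebentypus `χ` (`chiOf`, a Dirichlet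
character modulo `M`, trivial on `K`, `χ d = c (inr d)`), and its twist `nebTwist D f`
(helper658, helper564) is a nonzero eigenvector of the `T_ℓ` on `S₂(Γ₀(N'))` with the eigenvalues
`c (inl ℓ)`.

`exists_twisted_eigenvector` : the dictionary "Betti point → twisted nebentypus eigenvector".
-/

set_option autoImplicit false
set_option linter.unusedSectionVars false
set_option linter.style.haveILetI false

noncomputable section

namespace Fermat.Agent.S59.TW.H81.D561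

open CongruenceSubgroup ModularForm ModularCurve ModularCurve.Period
open UpperHalfPlane hiding I
open Matrix.SpecialLinearGroup Fermat.Agent.Lib.Newform.H803
open Fermat.Agent.S59.TW.H653 Fermat.Agent.S59.TW.H564 Fermat.Agent.S59.TW.H658
open scoped Manifold MatrixGroups ModularForm

variable {M : ℕ} {K : Subgroup SL(2, ℤ)} [NeZero M] [K.FiniteIndex]

section Neb

variable (hK : IsMid M K) {N' : ℕ} (hMN : M ∣ N') (u : ℕ → (ZMod M)ˣ) {S : Set ℕ}
  {f : CuspForm K 2} {c : OpIdx N' S M → ℂ}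

theorem coe_ne_zero_of_ne_zero (hf : f ≠ 0) : (⇑f : ℍ → ℂ) ≠ 0 := fun h =>
  hf (DFunLike.coe_injective (by rw [h]; rfl))

/-- An eigenvector of the diamond operators transforms under `Γ₀(M)` by its eigenvalues. -/
theorem slash_eq_of_eigen (hc : ∀ j, opF hK hMN u j f = c j • f) (g : Gamma0 M) :
    (⇑f : ℍ → ℂ) ∣[(2 : ℤ)] (g : SL(2, ℤ)) = c (Sum.inr (dUnit M g)) • (⇑f : ℍ → ℂ) := by
  have hF1 : SlInv 2 (Gamma1 M) (⇑f : ℍ → ℂ) := (slInv_of_cuspForm f).mono hK.ge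
  have h1 := slash_eq_of_dUnit_eq hF1 (g := g) (g' := sg (dUnit M g)) (by rw [dUnit_sg])
  rw [h1]
  have h2 := congrArg (fun F : CuspForm K 2 => (⇑F : ℍ → ℂ)) (hc (Sum.inr (dUnit M g)))
  exact h2

theorem c_inr_mul (hf : f ≠ 0) (hc : ∀ j, opF hK hMN u j f = c j • f) (d d' : (ZMod M)ˣ) :
    c (Sum.inr (d * d')) = c (Sum.inr d) * c (Sum.inr d') := by
  have h1 := slash_eq_of_eigen hK hMN u hc (sg d * sg d')
  have h2 : (((sg d * sg d' : Gamma0 M) : Gamma0 M) : SL(2, ℤ)) =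
      ((sg d : Gamma0 M) : SL(2, ℤ)) * ((sg d' : Gamma0 M) : SL(2, ℤ)) := rfl
  rw [h2, SlashAction.slash_mul, slash_eq_of_eigen hK hMN u hc (sg d),
    ModularForm.SL_smul_slash, slash_eq_of_eigen hK hMN u hc (sg d'), map_mul, dUnit_sg,
    dUnit_sg, smul_smul] at h1
  have h3 : (c (Sum.inr d) * c (Sum.inr d') - c (Sum.inr (d * d'))) • (⇑f : ℍ → ℂ) = 0 := by
    rw [sub_smul, h1, sub_self]
  rcases smul_eq_zero.mp h3 with h | h
  · exact (sub_eq_zero.mp h).symm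
  · exact absurd h (coe_ne_zero_of_ne_zero hf)

theorem c_inr_one (hf : f ≠ 0) (hc : ∀ j, opF hK hMN u j f = c j • f) :
    c (Sum.inr (1 : (ZMod M)ˣ) : OpIdx N' S M) = 1 := by
  have h1 := slash_eq_of_eigen hK hMN u hc (1 : Gamma0 M)
  have h2 : (((1 : Gamma0 M) : Gamma0 M) : SL(2, ℤ)) = 1 := rfl
  rw [h2, SlashAction.slash_one, map_one] at h1
  have h3 : (c (Sum.inr (1 : (ZMod M)ˣ) : OpIdx N' S M) - 1) • (⇑f : ℍ → ℂ) = 0 := by
    rw [sub_smul, ← h1, one_smul, sub_self]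
  rcases smul_eq_zero.mp h3 with h | h
  · exact sub_eq_zero.mp h
  · exact absurd h (coe_ne_zero_of_ne_zero hf)

/-- The eigenvalues of the diamond operators, as a monoid homomorphism. -/
def chiHom (hf : f ≠ 0) (hc : ∀ j, opF hK hMN u j f = c j • f) : (ZMod M)ˣ →* ℂ where
  toFun d := c (Sum.inr d)
  map_one' := c_inr_one hK hMN u hf hc
  map_mul' := c_inr_mul hK hMN u hf hc

/-- **The nebentypus of a diamond eigenvector.** -/
def chiOf (hf : f ≠ 0) (hc : ∀ j, opF hK hMN u j f = c j • f) : DirichletCharacter ℂ M :=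
  MulChar.ofUnitHom (chiHom hK hMN u hf hc).toHomUnits

theorem chiOf_apply (hf : f ≠ 0) (hc : ∀ j, opF hK hMN u j f = c j • f) (d : (ZMod M)ˣ) :
    chiOf hK hMN u hf hc (d : ZMod M) = c (Sum.inr d) := by
  rw [chiOf, MulChar.ofUnitHom_coe, MonoidHom.coe_toHomUnits]
  rfl

theorem isNeb_of_eigen (hf : f ≠ 0) (hc : ∀ j, opF hK hMN u j f = c j • f) :
    IsNeb 2 M (chiZ (chiOf hK hMN u hf hc)) (⇑f : ℍ → ℂ) := by
  intro γ hγ
  have h1 := slash_eq_of_eigen hK hMN u hc ⟨γ, hγ⟩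
  rw [chiZ_of_mem (chiOf hK hMN u hf hc) ⟨γ, hγ⟩, chiOf_apply]
  exact h1

theorem trivOn_chiOf (hf : f ≠ 0) (hc : ∀ j, opF hK hMN u j f = c j • f) :
    TrivOn K (chiOf hK hMN u hf hc) := by
  intro g hg
  rw [chiOf_apply]
  have h1 := slash_eq_of_eigen hK hMN u hc g
  rw [slInv_of_cuspForm f _ hg] at h1
  have h3 : (c (Sum.inr (dUnit M g) : OpIdx N' S M) - 1) • (⇑f : ℍ → ℂ) = 0 := by
    rw [sub_smul, ← h1, one_smul, sub_self]
  rcases smul_eq_zero.mp h3 with h | h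
  · exact sub_eq_zero.mp h
  · exact absurd h (coe_ne_zero_of_ne_zero hf)

/-- The eigenvector as an element of the nebentypus component. -/
def nebOf (hf : f ≠ 0) (hc : ∀ j, opF hK hMN u j f = c j • f) :
    nebSub M (chiOf hK hMN u hf hc) :=
  ⟨(⇑f : ℍ → ℂ), isCuspidal_of_cuspForm f, isNeb_of_eigen hK hMN u hf hc⟩

@[simp] theorem coe_nebOf (hf : f ≠ 0) (hc : ∀ j, opF hK hMN u j f = c j • f) :
    ((nebOf hK hMN u hf hc : nebSub M (chiOf hK hMN u hf hc)) : ℍ → ℂ) = ⇑f := rfl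

theorem nebOf_ne_zero (hf : f ≠ 0) (hc : ∀ j, opF hK hMN u j f = c j • f) :
    nebOf hK hMN u hf hc ≠ 0 := fun h =>
  coe_ne_zero_of_ne_zero hf (congrArg Subtype.val h)

/-- The eigenvector is an eigenvector of `χ(u ℓ) • T_ℓ` on its nebentypus component. -/
theorem nebT_nebOf (hf : f ≠ 0) (hc : ∀ j, opF hK hMN u j f = c j • f)
    (i : GoodPrime N' S) :
    haveI : Fact i.1.Prime := ⟨i.2.1⟩
    nebT (chiOf hK hMN u hf hc) (fun h => i.2.2.1 (h.trans hMN))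
        (chiOf hK hMN u hf hc ((u i.1 : (ZMod M)ˣ) : ZMod M)) (nebOf hK hMN u hf hc) =
      c (Sum.inl i) • nebOf hK hMN u hf hc := by
  haveI : Fact i.1.Prime := ⟨i.2.1⟩
  have hℓ : ¬ i.1 ∣ M := fun h => i.2.2.1 (h.trans hMN)
  apply Subtype.ext
  rw [coe_nebT, coe_nebOf]
  have h2 := congrArg (fun F : CuspForm K 2 => (⇑F : ℍ → ℂ)) (hc (Sum.inl i))
  have h3 : (⇑(opF hK hMN u (Sum.inl i : OpIdx N' S M) f) : ℍ → ℂ) =
      (famOp 2 (repsT M i.1) (⇑f : ℍ → ℂ)) ∣[(2 : ℤ)] ((sg (u i.1) : Gamma0 M) : SL(2, ℤ)) := rfl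
  have h4 := isNeb_famOp_repsT (chiOf hK hMN u hf hc) hℓ (isNeb_of_eigen hK hMN u hf hc)
    _ (sg (u i.1)).2
  rw [chiZ_of_mem, dUnit_sg] at h4
  rw [← h4, ← h3]
  exact h2

end Neb

/-- **DICT, part 2: Betti point → twisted nebentypus eigenvector.**
`vals` occurs integrally in the parabolic classes of `K` (see `exists_eigenform_of_occurs`).
Then there are eigenvalues `c`, a Dirichlet character `χ` modulo `M` trivial on `K`, a twist
datum `D` for `χ`, and `F ≠ 0` of nebentypus `χ`, such that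
* `χ d = c (inr d)`;
* the twist `nebTwist D F ∈ S₂(Γ₀(N'))` is a nonzero eigenvector of the `T_ℓ`, eigenvalues
  `c (inl ℓ)`;
* every integral polynomial relation between the `c j` holds for the `vals j`. -/
theorem exists_twisted_eigenvector (hK : IsMid M K) {N' : ℕ} [NeZero N'] {u : ℕ → (ZMod M)ˣ}
    (H : TwistHyp K N' u) {S : Set ℕ}
    {R : Type*} [CommRing R] [IsDomain R] (vals : OpIdx N' S M → R)
    (hocc : ∀ P : FreeAlgebra ℤ (OpIdx N' S M),
      (∀ y : Additive K →+ ℤ, IsParabolicHom K y →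
        FreeAlgebra.lift ℤ (opB hK ℤ H.dvd u) P y = 0) →
      FreeAlgebra.lift ℤ vals P = 0) :
    ∃ (c : OpIdx N' S M → ℂ) (χ : DirichletCharacter ℂ M) (_ : TrivOn K χ)
      (D : TwistDatum M N' χ) (F : nebSub M χ),
      F ≠ 0 ∧ (∀ d : (ZMod M)ˣ, χ (d : ZMod M) = c (Sum.inr d)) ∧
      (∀ ℓ : ℕ, ℓ.Prime → ¬ ℓ ∣ N' → psiL D.ψ D.L ℓ = χ ((u ℓ : (ZMod M)ˣ) : ZMod M)) ∧
      nebTwist D F ≠ 0 ∧
      (∀ i : GoodPrime N' S,
        CuspForm.heckeTLin 2 i.2.1 i.2.2.1 (nebTwist D F) = c (Sum.inl i) • nebTwist D F) ∧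
      ∀ P : FreeAlgebra ℤ (OpIdx N' S M),
        FreeAlgebra.lift ℤ c P = 0 → FreeAlgebra.lift ℤ vals P = 0 := by
  obtain ⟨f, c, hf, hc, hL⟩ := exists_eigenform_of_occurs hK H.dvd H.neg u vals hocc
  obtain ⟨D, hD⟩ := H.twist (chiOf hK H.dvd u hf hc) (trivOn_chiOf hK H.dvd u hf hc)
  have hF0 := nebOf_ne_zero hK H.dvd u hf hc
  have hne : nebTwist D (nebOf hK H.dvd u hf hc) ≠ 0 := fun h =>
    hF0 (nebTwist_injective D (h.trans (map_zero _).symm))
  refine ⟨c, chiOf hK H.dvd u hf hc, trivOn_chiOf hK H.dvd u hf hc, D,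
    nebOf hK H.dvd u hf hc, hF0, chiOf_apply hK H.dvd u hf hc, hD, hne, fun i => ?_, hL⟩
  haveI : Fact i.1.Prime := ⟨i.2.1⟩
  have hℓ : ¬ i.1 ∣ M := fun h => i.2.2.1 (h.trans H.dvd)
  have h1 := heckeTLin_nebTwist D i.2.2.1 hℓ (nebOf hK H.dvd u hf hc)
  rw [hD i.1 i.2.1 i.2.2.1, nebT_nebOf hK H.dvd u hf hc i] at h1
  rw [h1]
  apply DFunLike.coe_injective
  rw [coe_nebTwist]
  show twistL 2 D.ψ D.L (c (Sum.inl i) • (⇑f : ℍ → ℂ)) = c (Sum.inl i) • twistL 2 D.ψ D.L ⇑f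
  exact twistL_smul D.L _ _

end Fermat.Agent.S59.TW.H81.D561
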