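import Fermat.Agent.S59.TW.H81.D561.PerGInj
import Fermat.Agent.S59.TW.H81.D561.DictCore
import Fermat.Agent.S59.TW.H658.HeckeAction
import Fermat.Agent.S59.TW.H653.Comm.Main

-- Vendored VERBATIM (namespace renamed) by helper81 from helper561's off-main
-- `Fermat/Agent/S38/H561/DictOps.lean` (origin/helper561), so that the S59 leaf DICT-T is
-- self-contained on main.  All credit for this file: helper561.

/-!
# Row HARD, cell HECKE, leaf DICT (helper561): the operators

Vocabulary of helper653 / helper658 (`S59/TW/H653`, `S59/TW/H658`): `Γ₁(M) ≤ K ≤ Γ₀(M)`,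
`X_K(A) = Additive K →+ A`, `TK`, `diamondU`, `perG`, `TForm`, `diaForm`, `tFam`.

* `OpIdx N' S M` : the index set `{good primes ℓ} ⊕ (ℤ/M)ˣ` of the operators
  `t_ℓ = ⟨u ℓ⟩ T_ℓ` and `⟨d⟩`;
* `opB` : these operators on `X_K(A)` (Betti side);  `opF` : on `S₂(K)` (forms);
* `perG_opF` : the period map intertwines them;  `opB_comm`, `opF_comm` : they commute;
* `finiteDimensional_cuspFormG` : `S₂(K)` is finite-dimensional.
-/

set_option autoImplicit false
set_option linter.unusedSectionVars false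
set_option linter.style.haveILetI false

noncomputable section

namespace Fermat.Agent.S59.TW.H81.D561

open CongruenceSubgroup ModularForm ModularCurve ModularCurve.Period
open UpperHalfPlane hiding I
open Matrix.SpecialLinearGroup
open Fermat.Agent.S59.TW.H653 Fermat.Agent.S59.TW.H564 Fermat.Agent.S59.TW.H658
open scoped Manifold MatrixGroups ModularForm

/-! ## Finite dimensionality -/

section FinDim

variable {Γ : Subgroup SL(2, ℤ)} [Γ.FiniteIndex]

theorem fg_of_finiteIndex_h561 : Group.FG Γ := by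
  have : Group.FG SL(2, ℤ) :=
    Group.fg_iff.mpr ⟨{ModularGroup.S, ModularGroup.T},
      _root_.SpecialLinearGroup.SL2Z_generators, Set.toFinite _⟩
  exact Subgroup.fg_of_index_ne_zero Γ

/-- An additive character of `Γ` vanishing on a generating set vanishes. -/
theorem addHom_eq_zero_of_generators {A : Type*} [AddCommGroup A] (φ : Additive Γ →+ A)
    (s : Set Γ) (hs : Subgroup.closure s = ⊤) (h : ∀ γ ∈ s, φ (Additive.ofMul γ) = 0) :
    φ = 0 := by
  let H : Subgroup Γ :=
    { carrier := {γ | φ (Additive.ofMul γ) = 0}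
      one_mem' := by
        show φ (Additive.ofMul 1) = 0
        rw [ofMul_one, map_zero]
      mul_mem' := by
        intro a b ha hb
        show φ (Additive.ofMul (a * b)) = 0
        rw [ofMul_mul, map_add, ha, hb, add_zero]
      inv_mem' := by
        intro a ha
        show φ (Additive.ofMul a⁻¹) = 0
        rw [ofMul_inv, map_neg, ha, neg_zero] }
  have hle : Subgroup.closure s ≤ H := (Subgroup.closure_le H).mpr h
  rw [hs] at hle
  refine AddMonoidHom.ext fun γ => ?_
  exact hle (Subgroup.mem_top (Additive.toMul γ))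

/-- `S₂(Γ)` is finite-dimensional (the period map is injective and `Γ` is finitely
generated). -/
theorem finiteDimensional_cuspFormG (Γ : Subgroup SL(2, ℤ)) [Γ.FiniteIndex] :
    FiniteDimensional ℂ (CuspForm Γ 2) := by
  classical
  obtain ⟨s, hs⟩ := Group.fg_iff.mp (fg_of_finiteIndex_h561 (Γ := Γ))
  obtain ⟨hs, hfin⟩ := hs
  haveI : Finite s := hfin
  let L : CuspForm Γ 2 →ₗ[ℂ] (s → ℂ) :=
    { toFun := fun f γ => perG f (Additive.ofMul (γ : Γ))
      map_add' := by
        intro f g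
        funext γ
        rw [perG_add]
        rfl
      map_smul' := by
        intro c f
        funext γ
        rw [perG_smul]
        rfl }
  refine FiniteDimensional.of_injective L ?_
  rw [← LinearMap.ker_eq_bot, LinearMap.ker_eq_bot']
  intro f hf
  apply eq_zero_of_perG_eq_zero
  apply addHom_eq_zero_of_generators (perG f) s hs
  intro γ hγ
  exact congrFun hf ⟨γ, hγ⟩

end FinDim

/-! ## The operators -/

/-- The index set of the operators: the good primes `ℓ` (for `t_ℓ = ⟨u ℓ⟩ T_ℓ`) and the units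
`d` modulo `M` (for the diamond operators `⟨d⟩`). -/
abbrev OpIdx (N' : ℕ) (S : Set ℕ) (M : ℕ) : Type := GoodPrime N' S ⊕ (ZMod M)ˣ

variable {M : ℕ} {K : Subgroup SL(2, ℤ)}

section Betti

variable (hK : IsMid M K) (A : Type*) [AddCommGroup A]

/-- The diamond operator `⟨d⟩` as a `ℤ`-linear endomorphism of `X_K(A)`. -/
def diaEnd (d : (ZMod M)ˣ) : Module.End ℤ (Additive K →+ A) :=
  (AddMonoidHom.mk' (diamondU hK d) (diamondU_add hK d)).toIntLinearMap

@[simp] theorem diaEnd_apply (d : (ZMod M)ˣ) (φ : Additive K →+ A) :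
    diaEnd hK A d φ = diamondU hK d φ := rfl

/-- The operators `t_ℓ = ⟨u ℓ⟩ T_ℓ` and `⟨d⟩` on `X_K(A)`. -/
def opB {N' : ℕ} (hMN : M ∣ N') (u : ℕ → (ZMod M)ˣ) {S : Set ℕ} :
    OpIdx N' S M → Module.End ℤ (Additive K →+ A)
  | Sum.inl i => tFam hK A hMN u i
  | Sum.inr d => diaEnd hK A d

variable {A}

theorem opB_inl_apply {N' : ℕ} (hMN : M ∣ N') (u : ℕ → (ZMod M)ˣ) {S : Set ℕ}
    (i : GoodPrime N' S) (φ : Additive K →+ A) :
    opB hK A hMN u (Sum.inl i : OpIdx N' S M) φ =
      haveI : Fact i.1.Prime := ⟨i.2.1⟩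
      diamondU hK (u i.1) (TK M K i.1 φ) := rfl

theorem opB_inr_apply {N' : ℕ} (hMN : M ∣ N') (u : ℕ → (ZMod M)ˣ) {S : Set ℕ}
    (d : (ZMod M)ˣ) (φ : Additive K →+ A) :
    opB hK A hMN u (Sum.inr d : OpIdx N' S M) φ = diamondU hK d φ := rfl

/-- The operators commute with the change of coefficients. -/
theorem opB_comp {B : Type*} [AddCommGroup B] {N' : ℕ} (hMN : M ∣ N') (u : ℕ → (ZMod M)ˣ)
    {S : Set ℕ} (j : OpIdx N' S M) (π : A →+ B) (φ : Additive K →+ A) :
    opB hK B hMN u j (π.comp φ) = π.comp (opB hK A hMN u j φ) := by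
  rcases j with i | d
  · exact tFam_comp hK hMN u i π φ
  · exact diamondU_comp hK d π φ

/-- The operators commute. -/
theorem opB_comm [NeZero M] {N' : ℕ} (hMN : M ∣ N') (u : ℕ → (ZMod M)ˣ) {S : Set ℕ}
    (j j' : OpIdx N' S M) (φ : Additive K →+ A) :
    opB hK A hMN u j (opB hK A hMN u j' φ) = opB hK A hMN u j' (opB hK A hMN u j φ) := by
  rcases j with i | d <;> rcases j' with i' | d'
  · haveI : Fact i.1.Prime := ⟨i.2.1⟩
    haveI : Fact i'.1.Prime := ⟨i'.2.1⟩
    have hℓ : ¬ i.1 ∣ M := fun h => i.2.2.1 (h.trans hMN)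
    have hℓ' : ¬ i'.1 ∣ M := fun h => i'.2.2.1 (h.trans hMN)
    rw [opB_inl_apply, opB_inl_apply, opB_inl_apply, opB_inl_apply]
    rw [diamondU_TK hK hℓ, diamondU_TK hK hℓ', ← diamondU_mul, ← diamondU_mul,
      TK_comm hK hℓ hℓ', mul_comm]
  · haveI : Fact i.1.Prime := ⟨i.2.1⟩
    have hℓ : ¬ i.1 ∣ M := fun h => i.2.2.1 (h.trans hMN)
    rw [opB_inl_apply, opB_inr_apply, opB_inl_apply, opB_inr_apply]
    rw [diamondU_TK hK hℓ, ← diamondU_mul, ← diamondU_mul, mul_comm]
  · haveI : Fact i'.1.Prime := ⟨i'.2.1⟩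
    have hℓ' : ¬ i'.1 ∣ M := fun h => i'.2.2.1 (h.trans hMN)
    rw [opB_inl_apply, opB_inr_apply, opB_inl_apply, opB_inr_apply]
    rw [diamondU_TK hK hℓ', ← diamondU_mul, ← diamondU_mul, mul_comm]
  · rw [opB_inr_apply, opB_inr_apply, opB_inr_apply, opB_inr_apply]
    rw [← diamondU_mul, ← diamondU_mul, mul_comm]

end Betti

section Forms

variable [NeZero M] [K.FiniteIndex] (hK : IsMid M K)

/-- The operators `t_ℓ = ⟨u ℓ⟩ T_ℓ` and `⟨d⟩` on `S₂(K)`. -/
def opF {N' : ℕ} (hMN : M ∣ N') (u : ℕ → (ZMod M)ˣ) {S : Set ℕ} :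
    OpIdx N' S M → Module.End ℂ (CuspForm K 2)
  | Sum.inl i =>
    haveI : Fact i.1.Prime := ⟨i.2.1⟩
    (diaForm hK (sg (u i.1))).comp (TForm hK (fun h => i.2.2.1 (h.trans hMN)))
  | Sum.inr d => diaForm hK (sg d)

/-- **The period map intertwines the operators on forms and on `X_K(ℂ)`.** -/
theorem perG_opF {N' : ℕ} (hMN : M ∣ N') (u : ℕ → (ZMod M)ˣ) {S : Set ℕ}
    (j : OpIdx N' S M) (f : CuspForm K 2) :
    perG (opF hK hMN u j f) = opB hK ℂ hMN u j (perG f) := by
  rcases j with i | d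
  · haveI : Fact i.1.Prime := ⟨i.2.1⟩
    have hℓ : ¬ i.1 ∣ M := fun h => i.2.2.1 (h.trans hMN)
    show perG (diaForm hK (sg (u i.1)) (TForm hK hℓ f)) = _
    rw [perG_diaForm, perG_TForm, opB_inl_apply, ← diamondU_eq hK (dUnit_sg (u i.1))]
  · show perG (diaForm hK (sg d) f) = _
    rw [perG_diaForm, opB_inr_apply, ← diamondU_eq hK (dUnit_sg d)]

/-- The operators on `S₂(K)` commute. -/
theorem opF_comm {N' : ℕ} (hMN : M ∣ N') (u : ℕ → (ZMod M)ˣ) {S : Set ℕ}
    (j j' : OpIdx N' S M) :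
    opF hK hMN u j * opF hK hMN u j' = opF hK hMN u j' * opF hK hMN u j := by
  refine LinearMap.ext fun f => ?_
  apply perG_injective K
  rw [Module.End.mul_apply, Module.End.mul_apply, perG_opF, perG_opF, perG_opF, perG_opF]
  exact opB_comm hK hMN u j j' (perG f)

end Forms

end Fermat.Agent.S59.TW.H81.D561
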