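import Fermat.Agent.S59.TW.H658.PerG

-- Vendored VERBATIM (namespace renamed) by helper81 from helper561's off-main
-- `Fermat/Agent/S38/H561/PerGInj.lean` (origin/helper561), so that the S59 leaf DICT-T is
-- self-contained on main.  All credit for this file: helper561.

/-!
# Row HARD, cell HECKE, leaf DICT (helper561): the period map on `S₂(Γ)` is injective

`Γ ≤ SL(2, ℤ)` of finite index.  If all periods of `f ∈ S₂(Γ)` vanish, a primitive `F` of `f` is a
modular form of weight `0` on `Γ`, hence constant (Mathlib `ModularForm.eq_const_of_weight_zero`),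
so `f = F' = 0`.  (Port of `S48/H548/Per1Inj.lean` from `Γ₁(M)` to a general `Γ`, in the
vocabulary of `S59/TW/H658/PerG.lean`.)
-/

set_option autoImplicit false
set_option linter.unusedSectionVars false

noncomputable section

namespace Fermat.Agent.S59.TW.H81.D561

open CongruenceSubgroup ModularCurve ModularCurve.Period Filter Topology Function Complex
open UpperHalfPlane hiding I
open Matrix.SpecialLinearGroup
open Fermat.Agent.S59.TW.H658
open scoped Manifold MatrixGroups ModularForm

variable {Γ : Subgroup SL(2, ℤ)} [Γ.FiniteIndex]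

theorem isPrimG_mdiff {f F : ℍ → ℂ} (hF : IsPrimG f F) : MDiff F := fun τ ↦
  UpperHalfPlane.mdifferentiableAt_iff.mpr (hF τ).differentiableAt

theorem slash_zero_mapGL_h561 (F : ℍ → ℂ) (γ : SL(2, ℤ)) :
    F ∣[(0 : ℤ)] mapGL ℝ γ = fun w : ℍ ↦ F (γ • w) := by
  funext w
  have h := ModularForm.SL_slash_apply (k := 0) F γ w
  rw [ModularForm.SL_slash, neg_zero, zpow_zero, mul_one] at h
  exact h

/-- A primitive with vanishing periods, as a modular form of weight `0`. -/
def primFormG (f : CuspForm Γ 2) (F : ℍ → ℂ) (hF : IsPrimG (⇑f) F)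
    (hper : perG f = 0) : ModularForm Γ 0 where
  toFun := F
  slash_action_eq' := by
    rintro _ ⟨γ, hγ, rfl⟩
    rw [slash_zero_mapGL_h561]
    funext w
    have h := perG_apply f hF ⟨γ, hγ⟩ w
    rw [hper, AddMonoidHom.zero_apply] at h
    exact (sub_eq_zero.mp h.symm)
  holo' := isPrimG_mdiff hF
  bdd_at_cusps' := by
    intro c hc
    have hcSL : IsCusp c 𝒮ℒ := by
      rwa [Subgroup.IsArithmetic.isCusp_iff_isCusp_SL2Z] at hc
    obtain ⟨δ, hδ⟩ := isCusp_SL2Z_iff'.mp hcSL
    rw [OnePoint.isBoundedAt_iff hδ.symm, slash_zero_mapGL_h561]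
    obtain ⟨L, hL⟩ := exists_cusp_limitG f hF δ
    exact hL.isBigO_one ℝ

/-- The period map has trivial kernel. -/
theorem eq_zero_of_perG_eq_zero (f : CuspForm Γ 2) (hper : perG f = 0) : f = 0 := by
  obtain ⟨F, hF⟩ := exists_isPrimG f
  obtain ⟨c, hc⟩ := ModularForm.eq_const_of_weight_zero (primFormG f F hF hper)
  have hFc : F = Function.const ℍ c := hc
  apply DFunLike.coe_injective
  funext τ
  have h1 := hF τ
  have h2 : F ∘ ofComplex = fun _ ↦ c := by
    funext z
    rw [Function.comp_apply, hFc]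
    rfl
  rw [h2] at h1
  exact h1.unique (hasDerivAt_const _ _)

/-- **The period map `S₂(Γ) → Hom(Γ, ℂ)` is injective.** -/
theorem perGL_injective (Γ : Subgroup SL(2, ℤ)) [Γ.FiniteIndex] :
    Function.Injective (perGL Γ) := by
  intro f g h
  have h1 : perGL Γ (f - g) = 0 := by rw [map_sub, h, sub_self]
  exact sub_eq_zero.mp (eq_zero_of_perG_eq_zero (f - g) h1)

theorem perG_injective (Γ : Subgroup SL(2, ℤ)) [Γ.FiniteIndex] :
    Function.Injective (perG : CuspForm Γ 2 → (Additive Γ →+ ℂ)) :=
  perGL_injective Γ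

end Fermat.Agent.S59.TW.H81.D561
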